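/-
S30 (p-adic version), helper450: the raw Eichler–Shimura relations on the `p`-POWER torsion of
`J₀(N)(ℚ̄)` (input (T) `H330.TorsionRelations` of the adic module layer), from the exports of
row S37 (`S37.H98.rawES_at_of_placeRed`, `rawES_at_of_redData`, which hold for every torsion order
prime to `ℓ`).
-/
import Fermat.Agent.S37.H98.RawES
import Fermat.Agent.S30.H330.AdicDefs

set_option autoImplicit false

noncomputable section

namespace Fermat.Agent.S30.H450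

open ModularCurve ValuationSubring AlgebraicCurve

theorem not_dvd_pow_of_not_dvd_mul {ℓ N p : ℕ} (hℓ : ℓ.Prime) (h : ¬ ℓ ∣ N * p) (n : ℕ) :
    ¬ ℓ ∣ p ^ n := fun hd => h (Dvd.dvd.mul_left (hℓ.dvd_of_dvd_pow hd) N)

open Fermat.Agent.S37.Core in
/-- **(T) from the two open pieces of the S37 row plan** ([S18] `Core.InjTorsionModL` and [PR]
`Core.PlaceRed`): inertia at `ℓ ∤ N p` fixes `J₀(N)[p^∞]`, and every Frobenius at `ℓ` satisfies the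
Eichler–Shimura relation on `J₀(N)[p^∞]`. -/
theorem torsionRelations_of_pieces
    (hS18 : ∀ (N : ℕ) [NeZero N] (ℓ : ℕ), ℓ.Prime → ¬ ℓ ∣ N →
      ∀ A : ValuationSubring (AlgebraicClosure ℚ), A.LiesOverPrime ℓ → InjTorsionModL N ℓ A)
    (hPR : ∀ (N : ℕ) [NeZero N] (ℓ : ℕ) (hℓ : ℓ.Prime), ¬ ℓ ∣ N →
      ∀ A : ValuationSubring (AlgebraicClosure ℚ), A.LiesOverPrime ℓ →
        ∀ σ₀ : AlgebraicClosure ℚ ≃ₐ[ℚ] AlgebraicClosure ℚ, A.IsFrobeniusAt σ₀ ℓ →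
          haveI : NeZero ℓ := ⟨hℓ.ne_zero⟩; Nonempty (PlaceRed N A ℓ σ₀))
    (N : ℕ) [NeZero N] (p : ℕ) : Fermat.Agent.S30.H330.TorsionRelations N p := by
  intro ℓ hℓ hdvd A hA
  have hℓN : ¬ ℓ ∣ N := fun h => hdvd (Dvd.dvd.mul_right h p)
  refine ⟨fun σ hσ x hx => ?_, fun σ hσ x hx => ?_⟩
  · obtain ⟨n, hn⟩ := hx
    obtain ⟨σ₀, hσ₀⟩ := Fermat.Agent.S37.H99.exists_isFrobeniusAt ℓ hℓ A hA
    obtain ⟨D⟩ := hPR N ℓ hℓ hℓN A hA σ₀ hσ₀
    refine (Fermat.Agent.S37.H98.rawES_at_of_placeRed hℓ D (hS18 N ℓ hℓ hℓN A hA) (p ^ n)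
      (not_dvd_pow_of_not_dvd_mul hℓ hdvd n)).1 σ hσ x ?_
    rw [natCast_zsmul]
    exact hn
  · obtain ⟨n, hn⟩ := hx
    obtain ⟨D⟩ := hPR N ℓ hℓ hℓN A hA σ hσ
    have h := (Fermat.Agent.S37.H98.rawES_at_of_placeRed hℓ D (hS18 N ℓ hℓ hℓN A hA) (p ^ n)
      (not_dvd_pow_of_not_dvd_mul hℓ hdvd n)).2 x (by rw [natCast_zsmul]; exact hn)
    rw [natCast_zsmul] at h
    exact h

/-- **(T) from reduction data** (`S37.H99.RedData` for all `ℓ ∤ N` and all `A`). -/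
theorem torsionRelations_of_redData
    (H : ∀ (N : ℕ) [NeZero N] (ℓ : ℕ) (hℓ : ℓ.Prime), ¬ ℓ ∣ N →
      ∀ A : ValuationSubring (AlgebraicClosure ℚ), A.LiesOverPrime ℓ →
        Nonempty (Fermat.Agent.S37.H99.RedData N A ℓ hℓ))
    (N : ℕ) [NeZero N] (p : ℕ) : Fermat.Agent.S30.H330.TorsionRelations N p := by
  intro ℓ hℓ hdvd A hA
  have hℓN : ¬ ℓ ∣ N := fun h => hdvd (Dvd.dvd.mul_right h p)
  obtain ⟨D⟩ := H N ℓ hℓ hℓN A hA
  have hco : ∀ n : ℕ, (p ^ n).Coprime ℓ := fun n =>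
    Nat.coprime_comm.mp ((Nat.Prime.coprime_iff_not_dvd hℓ).mpr
      (not_dvd_pow_of_not_dvd_mul hℓ hdvd n))
  refine ⟨fun σ hσ x hx => ?_, fun σ hσ x hx => ?_⟩
  · obtain ⟨n, hn⟩ := hx
    exact (Fermat.Agent.S37.H98.rawES_at_of_redData D (p ^ n) (hco n)).1 σ hσ x
      (by rw [natCast_zsmul]; exact hn)
  · obtain ⟨n, hn⟩ := hx
    have h := (Fermat.Agent.S37.H98.rawES_at_of_redData D (p ^ n) (hco n)).2 σ hσ x
      (by rw [natCast_zsmul]; exact hn)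
    rw [natCast_zsmul] at h
    exact h

end Fermat.Agent.S30.H450
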